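/-
Cluster G (S36), block NORM, abstract part (helper28): norms of integral elements reduce to the
PRODUCT of the norms of the reductions at ALL the valuations above a given one.

`E ⊆ F` finite, `OE` a valuation ring of `E` with residue map `ρE : OE → Ek`, and finitely many
valuation rings `OF i` of `F` with residue maps `ρF i : OF i → Fk i`, all lying over `OE`
(`OF i ∩ E = OE`, compatible residue maps), such that

* `Σ_i [Fk i : Ek] = [F : E]`  (no defect, all ramification indices `1`, the list is complete);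
* joint lifts: every `β ∈ Fk i` is the reduction at `i` of some `b ∈ ∩_l OF l` which reduces to `0`
  at the other valuations (weak approximation).

Then for `t ∈ ∩_i OF i`:  `N_{F/E}(t) ∈ OE` and `ρE (N t) = ∏_i N_{Fk i / Ek} (ρF i t)`.

This generalises `Fermat.Agent.RedTr.normRed_abstract` (one valuation).  Use for S36: the degeneracy
map `π₁ : X₀(q² M₀) → X₀(q M₀)` at the Gauss valuation `w¹_∞`, above which lie `w_∞` (degree `1`)
and the two middle (Igusa) valuations `w_±` (degree `(q-1)/2` each).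
-/
import Mathlib
import Fermat.Agent.MUL.S36.Seed.MN1

set_option autoImplicit false
set_option linter.style.haveILetI false
set_option linter.unusedSectionVars false

noncomputable section

namespace Fermat.Agent.S36

open Matrix

/-- the determinant of a block diagonal matrix with blocks of variable size. -/
theorem det_blockDiagonal'_eq_prod {ι : Type*} [Fintype ι] [DecidableEq ι] {R : Type*}
    [CommRing R] {m' : ι → Type*} [∀ i, Fintype (m' i)] [∀ i, DecidableEq (m' i)]
    (d : ∀ i, Matrix (m' i) (m' i) R) :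
    (Matrix.blockDiagonal' d).det = ∏ i, (d i).det := by
  classical
  letI : LinearOrder ι := LinearOrder.lift' (Fintype.equivFin ι) (Fintype.equivFin ι).injective
  rw [(Matrix.blockTriangular_blockDiagonal' d).det_fintype]
  refine Finset.prod_congr rfl (fun k _ => ?_)
  rw [← Matrix.det_submatrix_equiv_self (Equiv.sigmaSubtype (β := m') k) (d k)]
  congr 1
  ext ⟨⟨i1, x⟩, hi⟩ ⟨⟨j1, y⟩, hj⟩
  simp only at hi hj
  subst hi
  subst hj
  simp [Matrix.toSquareBlock_def, Matrix.blockDiagonal'_apply_eq, Equiv.sigmaSubtype]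

section MultiNorm

variable {E F Ek : Type*} [Field E] [Field F] [Algebra E F] [Field Ek]
  {ι : Type*} [Fintype ι] [DecidableEq ι]
  {Fk : ι → Type*} [∀ i, Field (Fk i)] [∀ i, Algebra Ek (Fk i)]
  (OE : ValuationSubring E) (OF : ι → ValuationSubring F)
  (ρE : OE →+* Ek) (ρF : ∀ i, OF i →+* Fk i)

/-- the hypotheses of the abstract norm lemma for several valuations. -/
structure MultiNormSetup : Prop where
  /-- `OF i ∩ E = OE` -/
  mem_iff : ∀ (i : ι) (y : E), algebraMap E F y ∈ OF i ↔ y ∈ OE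
  /-- the residue maps are compatible -/
  red_map : ∀ (i : ι) (y : E) (hy : y ∈ OE) (hy' : algebraMap E F y ∈ OF i),
    ρF i ⟨algebraMap E F y, hy'⟩ = algebraMap Ek (Fk i) (ρE ⟨y, hy⟩)
  /-- `ρE` kills the maximal ideal -/
  ker : ∀ y : OE, ¬ IsUnit y → ρE y = 0
  /-- joint lifts (weak approximation) -/
  lift : ∀ (i : ι) (β : Fk i), ∃ b : F, ∃ hb : ∀ l, b ∈ OF l,
    ρF i ⟨b, hb i⟩ = β ∧ ∀ l, l ≠ i → ρF l ⟨b, hb l⟩ = 0

variable {OE OF ρE ρF}

/-- a family of joint lifts of families `β i` of residues. -/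
structure IsJointLift {d : ι → ℕ} (β : ∀ i, Fin (d i) → Fk i) (b : (Σ i, Fin (d i)) → F) :
    Prop where
  mem : ∀ j l, b j ∈ OF l
  self : ∀ j (h : b j ∈ OF j.1), ρF j.1 ⟨b j, h⟩ = β j.1 j.2
  other : ∀ j l (h : b j ∈ OF l), l ≠ j.1 → ρF l ⟨b j, h⟩ = 0

theorem exists_isJointLift (H : MultiNormSetup OE OF ρE ρF) {d : ι → ℕ}
    (β : ∀ i, Fin (d i) → Fk i) :
    ∃ b : (Σ i, Fin (d i)) → F, IsJointLift (OF := OF) (ρF := ρF) β b := by
  classical
  choose b hb hself hother using fun j : (Σ i, Fin (d i)) => H.lift j.1 (β j.1 j.2)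
  exact ⟨b, ⟨hb, fun j _ => hself j, fun j l _ hl => hother j l hl⟩⟩

/-- reduction at `i` of a combination with integral coefficients of joint lifts. -/
theorem multi_red_sum (H : MultiNormSetup OE OF ρE ρF) {d : ι → ℕ}
    {β : ∀ i, Fin (d i) → Fk i} {b : (Σ i, Fin (d i)) → F}
    (hb : IsJointLift (OF := OF) (ρF := ρF) β b)
    (c : (Σ i, Fin (d i)) → E) (hc : ∀ j, c j ∈ OE) (s : F) (hs : s = ∑ j, c j • b j)
    (i : ι) (hsi : s ∈ OF i) :
    ρF i ⟨s, hsi⟩ = ∑ m : Fin (d i), ρE ⟨c ⟨i, m⟩, hc _⟩ • β i m := by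
  classical
  have hmem' : ∀ j, algebraMap E F (c j) ∈ OF i := fun j => (H.mem_iff i _).mpr (hc j)
  have hs' : (⟨s, hsi⟩ : OF i)
      = ∑ j, (⟨algebraMap E F (c j), hmem' j⟩ : OF i) * ⟨b j, hb.mem j i⟩ := by
    apply Subtype.ext
    have h1 : ((∑ j, (⟨algebraMap E F (c j), hmem' j⟩ : OF i) * ⟨b j, hb.mem j i⟩ : OF i) : F)
        = ∑ j, (((⟨algebraMap E F (c j), hmem' j⟩ : OF i) * ⟨b j, hb.mem j i⟩ : OF i) : F) :=
      map_sum (OF i).subtype _ _
    rw [h1]
    show s = _
    rw [hs]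
    refine Finset.sum_congr rfl (fun j _ => ?_)
    rw [Algebra.smul_def]
    rfl
  rw [hs', map_sum, Fintype.sum_sigma]
  rw [Finset.sum_eq_single i]
  · refine Finset.sum_congr rfl (fun m _ => ?_)
    rw [map_mul, H.red_map i _ (hc _), hb.self ⟨i, m⟩ (hb.mem _ i), Algebra.smul_def]
  · intro l _ hl
    refine Finset.sum_eq_zero (fun m _ => ?_)
    rw [map_mul, hb.other ⟨l, m⟩ i (hb.mem _ i) (fun h => hl h.symm), mul_zero]
  · intro h
    exact absurd (Finset.mem_univ i) h

/-- the core scaling argument. -/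
theorem multi_core (H : MultiNormSetup OE OF ρE ρF) {d : ι → ℕ}
    {β : ∀ i, Fin (d i) → Fk i} (hβ : ∀ i, LinearIndependent Ek (β i))
    {b : (Σ i, Fin (d i)) → F} (hb : IsJointLift (OF := OF) (ρF := ρF) β b)
    (c : (Σ i, Fin (d i)) → E) (j₀ : Σ i, Fin (d i)) (hj₀ : c j₀ ≠ 0)
    (hmax : ∀ j, OE.valuation (c j) ≤ OE.valuation (c j₀))
    (s : F) (hsmem : s ∈ OF j₀.1) (hs : s = ∑ j, (c j / c j₀) • b j) :
    ρF j₀.1 ⟨s, hsmem⟩ ≠ 0 := by
  classical
  intro h0
  have hmem : ∀ j, c j / c j₀ ∈ OE := by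
    intro j
    rw [← OE.valuation_le_one_iff, map_div₀]
    exact div_le_one_of_le₀ (hmax j) zero_le
  have h1 := multi_red_sum H hb (fun j => c j / c j₀) hmem s hs j₀.1 hsmem
  rw [h0] at h1
  have h2 := Fintype.linearIndependent_iff.mp (hβ j₀.1) _ h1.symm j₀.2
  have h3 : (⟨c ⟨j₀.1, j₀.2⟩ / c j₀, hmem _⟩ : OE) = 1 := by
    apply Subtype.ext
    exact div_self hj₀
  rw [h3, map_one] at h2
  exact one_ne_zero h2

/-- joint lifts of independent residues are `E`-independent. -/
theorem multi_linearIndependent (H : MultiNormSetup OE OF ρE ρF) {d : ι → ℕ}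
    {β : ∀ i, Fin (d i) → Fk i} (hβ : ∀ i, LinearIndependent Ek (β i))
    {b : (Σ i, Fin (d i)) → F} (hb : IsJointLift (OF := OF) (ρF := ρF) β b) :
    LinearIndependent E b := by
  classical
  rw [Fintype.linearIndependent_iff]
  intro g hg
  by_contra hne
  push Not at hne
  obtain ⟨i0, hi0⟩ := hne
  have : Nonempty (Σ i, Fin (d i)) := ⟨i0⟩
  obtain ⟨j, hj⟩ := Finite.exists_max (fun i => OE.valuation (g i))
  have hgj : g j ≠ 0 := by
    intro h0
    have h1 := hj i0
    simp only [h0, map_zero] at h1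
    exact hi0 ((map_eq_zero _).mp (le_antisymm h1 zero_le))
  have h1 : ∑ i, (g i / g j) • b i = (g j)⁻¹ • ∑ i, g i • b i := by
    rw [Finset.smul_sum]
    refine Finset.sum_congr rfl (fun i _ => ?_)
    rw [smul_smul, div_eq_inv_mul]
  have h2 : (0 : F) = ∑ i, (g i / g j) • b i := by rw [h1, hg, smul_zero]
  refine multi_core H hβ hb g j hgj hj 0 (OF j.1).zero_mem h2 ?_
  exact map_zero (ρF j.1)

/-- the coordinates of an element which is integral for all the valuations, with respect to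
joint lifts of independent residues, are integral. -/
theorem multi_coord_mem (H : MultiNormSetup OE OF ρE ρF) {d : ι → ℕ}
    {β : ∀ i, Fin (d i) → Fk i} (hβ : ∀ i, LinearIndependent Ek (β i))
    {b : (Σ i, Fin (d i)) → F} (hb : IsJointLift (OF := OF) (ρF := ρF) β b)
    (c : (Σ i, Fin (d i)) → E) (t : F) (htm : ∀ l, t ∈ OF l)
    (ht : t = ∑ i, c i • b i) (i : Σ i, Fin (d i)) : c i ∈ OE := by
  classical
  by_contra hne
  have : Nonempty (Σ i, Fin (d i)) := ⟨i⟩
  obtain ⟨j, hj⟩ := Finite.exists_max (fun i => OE.valuation (c i))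
  have hi : 1 < OE.valuation (c i) := by
    rw [← OE.valuation_le_one_iff] at hne
    exact not_le.mp hne
  have hjv : 1 < OE.valuation (c j) := lt_of_lt_of_le hi (hj i)
  have hcj : c j ≠ 0 := by
    intro h0
    rw [h0, map_zero] at hjv
    exact not_lt.mpr zero_le hjv
  have hinv_lt : OE.valuation (c j)⁻¹ < 1 := by
    rw [map_inv₀]
    exact inv_lt_one_of_one_lt₀ hjv
  have hinv : (c j)⁻¹ ∈ OE := (OE.valuation_le_one_iff _).mp hinv_lt.le
  have hnu : ¬ IsUnit (⟨(c j)⁻¹, hinv⟩ : OE) := by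
    rw [ValuationSubring.valuation_eq_one_iff]
    exact hinv_lt.ne
  have hinv' : algebraMap E F (c j)⁻¹ ∈ OF j.1 := (H.mem_iff j.1 _).mpr hinv
  have hprod : algebraMap E F (c j)⁻¹ * t ∈ OF j.1 := (OF j.1).mul_mem _ _ hinv' (htm j.1)
  have h1 : ∑ i, (c i / c j) • b i = (c j)⁻¹ • ∑ i, c i • b i := by
    rw [Finset.smul_sum]
    refine Finset.sum_congr rfl (fun i _ => ?_)
    rw [smul_smul, div_eq_inv_mul]
  have h2 : algebraMap E F (c j)⁻¹ * t = ∑ i, (c i / c j) • b i := by
    rw [h1, ← ht, Algebra.smul_def]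
  refine multi_core H hβ hb c j hcj hj _ hprod h2 ?_
  have h3 : (⟨algebraMap E F (c j)⁻¹ * t, hprod⟩ : OF j.1)
      = ⟨algebraMap E F (c j)⁻¹, hinv'⟩ * ⟨t, htm j.1⟩ := rfl
  rw [h3, map_mul, H.red_map j.1 _ hinv, H.ker _ hnu, map_zero, zero_mul]

/-- **The abstract norm lemma for several valuations**: the norm of an element which is integral
for all the valuations above `OE` is integral and reduces to the product of the norms of its
reductions. -/
theorem normRed_multi (H : MultiNormSetup OE OF ρE ρF) [Module.Finite E F]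
    [∀ i, Module.Finite Ek (Fk i)]
    (hrank : Module.finrank E F = ∑ i, Module.finrank Ek (Fk i))
    (t : F) (ht : ∀ i, t ∈ OF i) :
    ∃ h : Algebra.norm E t ∈ OE,
      ρE ⟨Algebra.norm E t, h⟩ = ∏ i, Algebra.norm Ek (ρF i ⟨t, ht i⟩) := by
  classical
  set d : ι → ℕ := fun i => Module.finrank Ek (Fk i) with hd
  set βb : ∀ i, Module.Basis (Fin (d i)) Ek (Fk i) := fun i => Module.finBasis Ek (Fk i) with hβb
  set β : ∀ i, Fin (d i) → Fk i := fun i => βb i with hβ
  have hli : ∀ i, LinearIndependent Ek (β i) := fun i => (βb i).linearIndependent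
  obtain ⟨b, hb⟩ := exists_isJointLift H β
  have hliE := multi_linearIndependent H hli hb
  have hcard : Fintype.card (Σ i, Fin (d i)) = Module.finrank E F := by
    rw [Fintype.card_sigma, hrank]
    refine Finset.sum_congr rfl (fun i _ => ?_)
    rw [Fintype.card_fin]
  have hne : Nonempty (Σ i, Fin (d i)) := by
    rw [← Fintype.card_pos_iff, hcard]
    exact Module.finrank_pos
  set B : Module.Basis (Σ i, Fin (d i)) E F :=
    basisOfLinearIndependentOfCardEqFinrank hliE hcard with hB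
  have hBb : ∀ j, B j = b j := by
    intro j
    rw [hB, coe_basisOfLinearIndependentOfCardEqFinrank]
  -- the multiplication matrix
  set M := Algebra.leftMulMatrix B t with hM
  have hMexp : ∀ j, t * b j = ∑ i, M i j • b i := by
    intro j
    have h1 := B.sum_repr (t * B j)
    rw [← hBb j, ← h1]
    refine Finset.sum_congr rfl (fun i _ => ?_)
    rw [hM, Algebra.leftMulMatrix_eq_repr_mul, hBb i]
  have hMmem : ∀ i j, M i j ∈ OE := fun i j =>
    multi_coord_mem H hli hb (fun i => M i j) (t * b j)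
      (fun l => (OF l).mul_mem _ _ (ht l) (hb.mem j l)) (hMexp j) i
  set M' : Matrix (Σ i, Fin (d i)) (Σ i, Fin (d i)) OE := fun i j => ⟨M i j, hMmem i j⟩ with hM'
  have hMM' : M = M'.map OE.subtype := by
    ext i j
    rfl
  have hnorm : Algebra.norm E t = ((M'.det : OE) : E) := by
    rw [Algebra.norm_eq_matrix_det B, ← hM, hMM']
    exact (RingHom.map_det OE.subtype M').symm
  have hmem : Algebra.norm E t ∈ OE := by
    rw [hnorm]
    exact (M'.det).2
  refine ⟨hmem, ?_⟩
  have h1 : (⟨Algebra.norm E t, hmem⟩ : OE) = M'.det := Subtype.ext hnorm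
  rw [h1, RingHom.map_det]
  -- the reduced matrix is block diagonal
  have hblock : ρE.mapMatrix M'
      = Matrix.blockDiagonal' (fun i => Algebra.leftMulMatrix (βb i) (ρF i ⟨t, ht i⟩)) := by
    ext ⟨i, m⟩ ⟨l, m'⟩
    rw [RingHom.mapMatrix_apply, Matrix.map_apply]
    -- reduce the expansion of `t * b ⟨l, m'⟩` at the valuation `i`
    have htb : t * b ⟨l, m'⟩ ∈ OF i := (OF i).mul_mem _ _ (ht i) (hb.mem _ i)
    have hred := multi_red_sum H hb (fun j => M j ⟨l, m'⟩) (fun j => hMmem j ⟨l, m'⟩)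
      (t * b ⟨l, m'⟩) (hMexp ⟨l, m'⟩) i htb
    have hprod : (⟨t * b ⟨l, m'⟩, htb⟩ : OF i) = ⟨t, ht i⟩ * ⟨b ⟨l, m'⟩, hb.mem _ i⟩ := rfl
    rw [hprod, map_mul] at hred
    by_cases hil : i = l
    · subst hil
      rw [Matrix.blockDiagonal'_apply_eq, Algebra.leftMulMatrix_eq_repr_mul]
      have h2 := hb.self ⟨i, m'⟩ (hb.mem _ i)
      simp only at h2
      rw [h2] at hred
      have h3 : (βb i).repr (ρF i ⟨t, ht i⟩ * (βb i) m') m
          = (βb i).repr (∑ m'' : Fin (d i), ρE ⟨M ⟨i, m''⟩ ⟨i, m'⟩, hMmem _ _⟩ • (βb i) m'') m := by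
        rw [← hred]
      rw [h3, (βb i).repr_sum_self]
    · rw [Matrix.blockDiagonal'_apply_ne _ _ _ hil]
      have h2 := hb.other ⟨l, m'⟩ i (hb.mem _ i) hil
      rw [h2, mul_zero] at hred
      exact Fintype.linearIndependent_iff.mp (hli i) _ hred.symm m
  have hblock' : (ρE.mapMatrix M').det
      = ∏ i, (Algebra.leftMulMatrix (βb i) (ρF i ⟨t, ht i⟩)).det := by
    rw [hblock, det_blockDiagonal'_eq_prod]
  rw [hblock']
  refine Finset.prod_congr rfl (fun i _ => ?_)
  rw [Algebra.norm_eq_matrix_det (βb i)]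

end MultiNorm

end Fermat.Agent.S36
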